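import Mathlib

/-!
# Elements of `SL(2,ℤ)` of trace `±2` are `±` conjugates of powers of `T`
-/

set_option autoImplicit false

open scoped MatrixGroups
open ModularGroup Matrix

namespace Fermat.Agent.S20.H270

theorem SL2_det_expl (γ : SL(2, ℤ)) : γ 0 0 * γ 1 1 - γ 0 1 * γ 1 0 = 1 := by
  have h := γ.det_coe
  rw [Matrix.det_fin_two] at h
  exact h

theorem SL2_trace_expl (γ : SL(2, ℤ)) : (γ : Matrix (Fin 2) (Fin 2) ℤ).trace = γ 0 0 + γ 1 1 := by
  rw [Matrix.trace_fin_two]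

/-- An element of `SL(2,ℤ)` whose first column is `(1, 0)` is a power of `T`. -/
theorem eq_T_zpow_of_col (γ : SL(2, ℤ)) (h00 : γ 0 0 = 1) (h10 : γ 1 0 = 0) :
    γ = T ^ (γ 0 1) := by
  have hdet := SL2_det_expl γ
  rw [h00, h10, mul_zero, sub_zero, one_mul] at hdet
  ext i j
  rw [coe_T_zpow]
  fin_cases i <;> fin_cases j <;> simp [h00, h10, hdet]

/-- A fixed primitive vector gives a conjugation to a power of `T`. -/
theorem exists_conj_of_fixed_vector (γ : SL(2, ℤ)) (x z : ℤ) (hxz : IsCoprime x z)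
    (h0 : γ 0 0 * x + γ 0 1 * z = x) (h1 : γ 1 0 * x + γ 1 1 * z = z) :
    ∃ (g : SL(2, ℤ)) (k : ℤ), γ = g * T ^ k * g⁻¹ := by
  obtain ⟨g, hg0, hg1⟩ := hxz.exists_SL2_col 0
  have hgdet := SL2_det_expl g
  rw [hg0, hg1] at hgdet
  have hi00 : (g⁻¹ : SL(2, ℤ)) 0 0 = g 1 1 := by
    rw [Matrix.SpecialLinearGroup.SL2_inv_expl]; rfl
  have hi01 : (g⁻¹ : SL(2, ℤ)) 0 1 = -g 0 1 := by
    rw [Matrix.SpecialLinearGroup.SL2_inv_expl]; rfl
  have hi10 : (g⁻¹ : SL(2, ℤ)) 1 0 = -g 1 0 := by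
    rw [Matrix.SpecialLinearGroup.SL2_inv_expl]; rfl
  have hi11 : (g⁻¹ : SL(2, ℤ)) 1 1 = g 0 0 := by
    rw [Matrix.SpecialLinearGroup.SL2_inv_expl]; rfl
  have key : g⁻¹ * γ * g = T ^ ((g⁻¹ * γ * g) 0 1) := by
    apply eq_T_zpow_of_col
    · simp only [Matrix.SpecialLinearGroup.coe_mul, Matrix.mul_apply, Fin.sum_univ_two,
        hi00, hi01, hg0, hg1]
      linear_combination (g 1 1) * h0 - (g 0 1) * h1 + hgdet
    · simp only [Matrix.SpecialLinearGroup.coe_mul, Matrix.mul_apply, Fin.sum_univ_two,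
        hi10, hi11, hg0, hg1]
      linear_combination (-z) * h0 + x * h1
  refine ⟨g, (g⁻¹ * γ * g) 0 1, ?_⟩
  rw [← key]
  group

/-- Elements of trace `2` are conjugate to powers of `T`. -/
theorem exists_conj_T_zpow_of_trace_two (γ : SL(2, ℤ))
    (h : (γ : Matrix (Fin 2) (Fin 2) ℤ).trace = 2) :
    ∃ (g : SL(2, ℤ)) (k : ℤ), γ = g * T ^ k * g⁻¹ := by
  rw [SL2_trace_expl] at h
  have hdet := SL2_det_expl γ
  -- `e = a - 1`, `d = 1 - e`, `b c = - e ^ 2`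
  by_cases hc : γ 1 0 = 0
  · -- upper triangular: `a d = 1`, `a + d = 2`, so `a = d = 1`
    have ha : γ 0 0 = 1 := by
      have h1 : (γ 0 0 - 1) ^ 2 = 0 := by
        have : γ 1 1 = 2 - γ 0 0 := by linarith
        rw [hc, this] at hdet
        linear_combination -hdet
      have := pow_eq_zero_iff (two_ne_zero) |>.mp h1
      linarith
    refine exists_conj_of_fixed_vector γ 1 0 isCoprime_one_left ?_ ?_
    · rw [ha]; ring
    · rw [hc]; ring
  · -- the vector `(e, c) / gcd`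
    have hpos : 0 < Int.gcd (γ 0 0 - 1) (γ 1 0) :=
      Int.gcd_pos_of_ne_zero_right _ hc
    obtain ⟨x, z, hgcd, hx, hz⟩ := Int.exists_gcd_one hpos
    have hxz : IsCoprime x z := Int.isCoprime_iff_gcd_eq_one.mpr hgcd
    set δ : ℤ := (Int.gcd (γ 0 0 - 1) (γ 1 0) : ℤ) with hδ
    have hδ0 : δ ≠ 0 := by
      rw [hδ]; exact_mod_cast hpos.ne'
    refine exists_conj_of_fixed_vector γ x z hxz ?_ ?_
    · apply mul_right_cancel₀ hδ0
      have hd : γ 1 1 = 2 - γ 0 0 := by linarith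
      rw [hd] at hdet
      -- (a x + b z) δ = a (e) + b c = a e - e^2 ... 
      have e1 : x * δ = γ 0 0 - 1 := hx.symm
      have e2 : z * δ = γ 1 0 := hz.symm
      linear_combination (γ 0 0 - 1) * e1 + γ 0 1 * e2 - hdet
    · apply mul_right_cancel₀ hδ0
      have hd : γ 1 1 = 2 - γ 0 0 := by linarith
      have e1 : x * δ = γ 0 0 - 1 := hx.symm
      have e2 : z * δ = γ 1 0 := hz.symm
      linear_combination γ 1 0 * e1 + (γ 1 1 - 1) * e2 + γ 1 0 * hd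

/-- **Parabolic elements.** Elements of `SL(2,ℤ)` with `trace ^ 2 = 4` are `±` conjugates of
powers of `T`. -/
theorem exists_conj_T_zpow_of_trace_sq (γ : SL(2, ℤ))
    (h : (γ : Matrix (Fin 2) (Fin 2) ℤ).trace ^ 2 = 4) :
    ∃ (g : SL(2, ℤ)) (k : ℤ), γ = g * T ^ k * g⁻¹ ∨ γ = -(g * T ^ k * g⁻¹) := by
  have h2 : (γ : Matrix (Fin 2) (Fin 2) ℤ).trace = 2 ∨
      (γ : Matrix (Fin 2) (Fin 2) ℤ).trace = -2 := by
    have : ((γ : Matrix (Fin 2) (Fin 2) ℤ).trace - 2) *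
        ((γ : Matrix (Fin 2) (Fin 2) ℤ).trace + 2) = 0 := by
      linear_combination h
    rcases mul_eq_zero.mp this with h' | h'
    · left; linarith
    · right; linarith
  rcases h2 with h2 | h2
  · obtain ⟨g, k, hk⟩ := exists_conj_T_zpow_of_trace_two γ h2
    exact ⟨g, k, Or.inl hk⟩
  · have h3 : ((-γ : SL(2, ℤ)) : Matrix (Fin 2) (Fin 2) ℤ).trace = 2 := by
      rw [Matrix.SpecialLinearGroup.coe_neg, Matrix.trace_neg, h2]; norm_num
    obtain ⟨g, k, hk⟩ := exists_conj_T_zpow_of_trace_two (-γ) h3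
    refine ⟨g, k, Or.inr ?_⟩
    rw [← hk, neg_neg]

end Fermat.Agent.S20.H270
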