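import Fermat.Agent.S20.H270.PingPong

/-!
# Existence of 1-cocycles of `SL(2,ℤ)` with prescribed values on `S` and `U = S * T`

For a linear representation `ρ` of `SL(2,ℤ)` on `V` on which `-1` acts trivially, and `a b : V`
with `a + S a = 0`, `b + U b + U² b = 0`, there is a (unique) cocycle `c` with `c S = a`,
`c U = b`.
-/

set_option autoImplicit false

open scoped MatrixGroups
open ModularGroup

namespace Fermat.Agent.S20.H270

variable {K V : Type*} [Semiring K] [AddCommGroup V] [Module K V]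

/-- The affine permutation `v ↦ L v + a`. -/
def affPerm (L : V ≃ₗ[K] V) (a : V) : Equiv.Perm V where
  toFun v := L v + a
  invFun v := L.symm (v - a)
  left_inv v := by simp
  right_inv v := by simp

@[simp] theorem affPerm_apply (L : V ≃ₗ[K] V) (a v : V) : affPerm L a v = L v + a := rfl

/-- A 1-cocycle of `SL(2,ℤ)` with values in the representation `ρ`. -/
def IsCocycle (ρ : SL(2, ℤ) →* (V ≃ₗ[K] V)) (c : SL(2, ℤ) → V) : Prop :=
  ∀ g h, c (g * h) = c g + ρ g (c h)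

theorem rho_mul_apply (ρ : SL(2, ℤ) →* (V ≃ₗ[K] V)) (g h : SL(2, ℤ)) (v : V) :
    ρ (g * h) v = ρ g (ρ h v) := by
  rw [map_mul]; rfl

theorem rho_one_apply (ρ : SL(2, ℤ) →* (V ≃ₗ[K] V)) (v : V) : ρ 1 v = v := by
  rw [map_one]; rfl

theorem rho_inv_apply_apply (ρ : SL(2, ℤ) →* (V ≃ₗ[K] V)) (g : SL(2, ℤ)) (v : V) :
    ρ g⁻¹ (ρ g v) = v := by
  rw [← rho_mul_apply, inv_mul_cancel, rho_one_apply]

theorem rho_apply_inv_apply (ρ : SL(2, ℤ) →* (V ≃ₗ[K] V)) (g : SL(2, ℤ)) (v : V) :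
    ρ g (ρ g⁻¹ v) = v := by
  rw [← rho_mul_apply, mul_inv_cancel, rho_one_apply]

theorem rho_S_S (ρ : SL(2, ℤ) →* (V ≃ₗ[K] V)) (hneg : ρ (-1) = 1) (v : V) :
    ρ S (ρ S v) = v := by
  rw [← rho_mul_apply, ← pow_two, S_sq_eq_neg_one, hneg]; rfl

theorem rho_U_U_U (ρ : SL(2, ℤ) →* (V ≃ₗ[K] V)) (hneg : ρ (-1) = 1) (v : V) :
    ρ Umat (ρ Umat (ρ Umat v)) = v := by
  have h3 : Umat * Umat * Umat = -1 := by decide
  rw [← rho_mul_apply, ← rho_mul_apply, h3, hneg]; rfl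

/-- The affine homomorphism attached to `(a, b)`. -/
theorem exists_affine_hom (ρ : SL(2, ℤ) →* (V ≃ₗ[K] V)) (hneg : ρ (-1) = 1) (a b : V)
    (ha : a + ρ S a = 0) (hb : b + ρ Umat b + ρ Umat (ρ Umat b) = 0) :
    ∃ Ψ : SL(2, ℤ) →* Equiv.Perm V,
      (∀ g v, Ψ g v = ρ g v + Ψ g 0) ∧ Ψ S 0 = a ∧ Ψ Umat 0 = b := by
  have hx : affPerm (ρ S) a ^ 2 = 1 := by
    refine Equiv.ext fun v => ?_
    rw [pow_two, Equiv.Perm.mul_apply, Equiv.Perm.one_apply]
    simp only [affPerm_apply, map_add, rho_S_S ρ hneg]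
    rw [add_assoc, add_comm (ρ S a) a, ha, add_zero]
  have hy : affPerm (ρ Umat) b ^ 3 = 1 := by
    refine Equiv.ext fun v => ?_
    rw [pow_succ, pow_two, Equiv.Perm.mul_apply, Equiv.Perm.mul_apply, Equiv.Perm.one_apply]
    simp only [affPerm_apply, map_add, rho_U_U_U ρ hneg]
    have : ρ Umat (ρ Umat b) + ρ Umat b + b = 0 := by rw [← hb]; abel
    rw [add_assoc, add_assoc, ← add_assoc (ρ Umat (ρ Umat b)), this, add_zero]
  obtain ⟨Ψ, hΨS, hΨU⟩ := exists_monoidHom_of_sq_of_cube _ _ hx hy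
  have hΨU' : Ψ Umat = affPerm (ρ Umat) b := hΨU
  -- the subgroup of elements acting affinely with linear part `ρ`
  let H : Subgroup SL(2, ℤ) :=
    { carrier := {g | ∀ v, Ψ g v = ρ g v + Ψ g 0}
      one_mem' := fun v => by
        show Ψ 1 v = ρ 1 v + Ψ 1 0
        rw [map_one, rho_one_apply]; simp
      mul_mem' := fun {g h} hg hh v => by
        show Ψ (g * h) v = ρ (g * h) v + Ψ (g * h) 0
        rw [map_mul, Equiv.Perm.mul_apply, Equiv.Perm.mul_apply, hh v, hg (ρ h v + Ψ h 0),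
          hg (Ψ h 0), rho_mul_apply, map_add]
        abel
      inv_mem' := fun {g} hg v => by
        show Ψ g⁻¹ v = ρ g⁻¹ v + Ψ g⁻¹ 0
        apply (Ψ g).injective
        have h1 : ∀ w, Ψ g (Ψ g⁻¹ w) = w := fun w => by
          rw [← Equiv.Perm.mul_apply, ← map_mul, mul_inv_cancel, map_one]; rfl
        rw [h1, hg (ρ g⁻¹ v + Ψ g⁻¹ 0), map_add, rho_apply_inv_apply, add_assoc,
          ← hg (Ψ g⁻¹ 0), h1, add_zero] }
  have hS : S ∈ H := fun v => by
    show Ψ S v = ρ S v + Ψ S 0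
    rw [hΨS]; simp
  have hU : Umat ∈ H := fun v => by
    show Ψ Umat v = ρ Umat v + Ψ Umat 0
    rw [hΨU']; simp
  have hT : T ∈ H := by
    rw [T_eq_S_inv_mul_Umat]
    exact H.mul_mem (H.inv_mem hS) hU
  have htop : H = ⊤ := by
    rw [eq_top_iff, ← SpecialLinearGroup.SL2Z_generators, Subgroup.closure_le]
    rintro g (rfl | hg)
    · exact hS
    · rw [Set.mem_singleton_iff] at hg
      subst hg
      exact hT
  refine ⟨Ψ, fun g v => ?_, ?_, ?_⟩
  · have : g ∈ H := by rw [htop]; trivial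
    exact this v
  · rw [hΨS]; simp
  · rw [hΨU']; simp

/-- **Existence of cocycles** with prescribed values on the generators `S`, `U = S * T`. -/
theorem exists_cocycle (ρ : SL(2, ℤ) →* (V ≃ₗ[K] V)) (hneg : ρ (-1) = 1) (a b : V)
    (ha : a + ρ S a = 0) (hb : b + ρ Umat b + ρ Umat (ρ Umat b) = 0) :
    ∃ c : SL(2, ℤ) → V, IsCocycle ρ c ∧ c S = a ∧ c Umat = b := by
  obtain ⟨Ψ, hΨ, hS, hU⟩ := exists_affine_hom ρ hneg a b ha hb
  refine ⟨fun g => Ψ g 0, fun g h => ?_, hS, hU⟩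
  show Ψ (g * h) 0 = Ψ g 0 + ρ g (Ψ h 0)
  rw [map_mul, Equiv.Perm.mul_apply, hΨ g (Ψ h 0), add_comm]

namespace IsCocycle

variable {ρ : SL(2, ℤ) →* (V ≃ₗ[K] V)} {c : SL(2, ℤ) → V}

theorem map_one (hc : IsCocycle ρ c) : c 1 = 0 := by
  have h := hc 1 1
  rw [mul_one, rho_one_apply] at h
  have : c 1 + c 1 = c 1 + 0 := by rw [← h, add_zero]
  exact add_left_cancel this

theorem map_inv (hc : IsCocycle ρ c) (g : SL(2, ℤ)) : c g⁻¹ = -ρ g⁻¹ (c g) := by
  have h := hc g⁻¹ g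
  rw [inv_mul_cancel, hc.map_one] at h
  exact eq_neg_of_add_eq_zero_left h.symm

/-- The stabiliser of `v` under the affine action `g ⋆ v = ρ g v + c g`. -/
def stab (hc : IsCocycle ρ c) (v : V) : Subgroup SL(2, ℤ) where
  carrier := {g | ρ g v + c g = v}
  one_mem' := by
    show ρ 1 v + c 1 = v
    rw [rho_one_apply, hc.map_one, add_zero]
  mul_mem' := fun {g h} hg hh => by
    show ρ (g * h) v + c (g * h) = v
    have hg' : ρ g v + c g = v := hg
    have hh' : ρ h v + c h = v := hh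
    rw [hc g h, rho_mul_apply]
    calc ρ g (ρ h v) + (c g + ρ g (c h)) = ρ g (ρ h v + c h) + c g := by rw [map_add]; abel
      _ = v := by rw [hh', hg']
  inv_mem' := fun {g} hg => by
    show ρ g⁻¹ v + c g⁻¹ = v
    have hg' : ρ g v + c g = v := hg
    rw [hc.map_inv]
    calc ρ g⁻¹ v + -ρ g⁻¹ (c g) = ρ g⁻¹ (ρ g v + c g) + -ρ g⁻¹ (c g) := by rw [hg']
      _ = v := by rw [map_add, rho_inv_apply_apply]; abel

theorem mem_stab (hc : IsCocycle ρ c) (v : V) (g : SL(2, ℤ)) :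
    g ∈ hc.stab v ↔ ρ g v + c g = v := Iff.rfl

theorem conj_mem_stab (hc : IsCocycle ρ c) {v : V} {g : SL(2, ℤ)} (hg : g ∈ hc.stab v)
    (h : SL(2, ℤ)) : h * g * h⁻¹ ∈ hc.stab (ρ h v + c h) := by
  have hg' : ρ g v + c g = v := hg
  show ρ (h * g * h⁻¹) (ρ h v + c h) + c (h * g * h⁻¹) = ρ h v + c h
  have e1 : c (h * g * h⁻¹) = c h + ρ h (c g) - ρ (h * g * h⁻¹) (c h) := by
    rw [hc (h * g) h⁻¹, hc h g, hc.map_inv, map_neg, ← rho_mul_apply]
    abel
  have e2 : ρ (h * g * h⁻¹) (ρ h v) = ρ h (ρ g v) := by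
    rw [← rho_mul_apply, inv_mul_cancel_right, rho_mul_apply]
  rw [map_add, e1, e2]
  calc ρ h (ρ g v) + ρ (h * g * h⁻¹) (c h) + (c h + ρ h (c g) - ρ (h * g * h⁻¹) (c h))
      = ρ h (ρ g v + c g) + c h := by rw [map_add]; abel
    _ = ρ h v + c h := by rw [hg']

/-- A cocycle is determined by its values at `S` and `T`. -/
theorem eq_zero_of_S_T (hc : IsCocycle ρ c) (hS : c S = 0) (hT : c T = 0) (g : SL(2, ℤ)) :
    c g = 0 := by
  have h0 : hc.stab 0 = ⊤ := by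
    rw [eq_top_iff, ← SpecialLinearGroup.SL2Z_generators, Subgroup.closure_le]
    rintro g (rfl | hg)
    · show ρ S 0 + c S = 0
      rw [hS, map_zero, add_zero]
    · rw [Set.mem_singleton_iff] at hg
      subst hg
      show ρ T 0 + c T = 0
      rw [hT, map_zero, add_zero]
  have : g ∈ hc.stab 0 := by rw [h0]; trivial
  have h1 : ρ g 0 + c g = 0 := this
  rwa [map_zero, zero_add] at h1

theorem map_T (hc : IsCocycle ρ c) : c T = ρ S⁻¹ (c Umat - c S) := by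
  have h := hc S T
  have h2 : c Umat = c S + ρ S (c T) := h
  rw [h2, add_sub_cancel_left, rho_inv_apply_apply]

theorem eq_zero_of_S_U (hc : IsCocycle ρ c) (hS : c S = 0) (hU : c Umat = 0) (g : SL(2, ℤ)) :
    c g = 0 := by
  refine hc.eq_zero_of_S_T hS ?_ g
  rw [hc.map_T, hS, hU, sub_zero, map_zero]

end IsCocycle

end Fermat.Agent.S20.H270
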