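import Mathlib

/-!
# Permutation representations: invariants and orbit counts

For a group `G` acting on a finite set `X` and a field `K`, the representation of `G` on
`X → K` given by `(g • m) x = m (g⁻¹ • x)`.  For `g : G`, the invariants of `g` have dimension
the number of orbits of `⟨g⟩`, hence `range (g - 1)` has dimension `|X| - #orbits`.
-/

set_option autoImplicit false

namespace Fermat.Agent.S20.H270

open Module

variable (K : Type*) [Field K] {G : Type*} [Group G] {X : Type*} [MulAction G X]

/-- The permutation representation of `G` on functions `X → K`. -/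
def funRep : G →* ((X → K) ≃ₗ[K] (X → K)) where
  toFun g :=
    { toFun := fun m x => m (g⁻¹ • x)
      invFun := fun m x => m (g • x)
      map_add' := fun _ _ => rfl
      map_smul' := fun _ _ => rfl
      left_inv := fun m => by funext x; simp
      right_inv := fun m => by funext x; simp }
  map_one' := by
    ext m x
    simp
  map_mul' g h := by
    ext m x
    simp [mul_smul]

@[simp] theorem funRep_apply (g : G) (m : X → K) (x : X) : funRep K g m x = m (g⁻¹ • x) := rfl

/-- `range (g - 1)` on functions. -/
def rangeSub (g : G) : Submodule K (X → K) :=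
  LinearMap.range (((funRep K g : (X → K) ≃ₗ[K] (X → K)) : (X → K) →ₗ[K] (X → K)) - LinearMap.id)

theorem mem_rangeSub (g : G) (m : X → K) :
    m ∈ rangeSub K g ↔ ∃ p : X → K, funRep K g p - p = m := by
  simp [rangeSub, LinearMap.mem_range]

/-- The invariants of `g` on functions. -/
def invSub (g : G) : Submodule K (X → K) :=
  LinearMap.ker (((funRep K g : (X → K) ≃ₗ[K] (X → K)) : (X → K) →ₗ[K] (X → K)) - LinearMap.id)

theorem mem_invSub (g : G) (m : X → K) : m ∈ invSub K g ↔ funRep K g m = m := by
  simp [invSub, LinearMap.mem_ker, sub_eq_zero]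

/-- The number of orbits of `⟨g⟩` on `X`. -/
noncomputable def numOrb (X : Type*) [MulAction G X] (g : G) : ℕ :=
  Nat.card (MulAction.orbitRel.Quotient (Subgroup.zpowers g) X)

theorem invariant_zpow {g : G} {m : X → K} (hm : funRep K g m = m) (k : ℤ) (x : X) :
    m (g ^ k • x) = m x := by
  have h1 : ∀ x, m (g⁻¹ • x) = m x := fun x => congrFun hm x
  have h2 : ∀ x, m (g • x) = m x := fun x => by
    have := h1 (g • x)
    rw [inv_smul_smul] at this
    exact this.symm
  induction k using Int.induction_on generalizing x with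
  | zero => simp
  | succ n ih => rw [zpow_add_one, mul_smul, ih, h2]
  | pred n ih => rw [zpow_sub_one, mul_smul, ih, h1]

theorem invSub_eq_range_funLeft (g : G) :
    invSub K g = LinearMap.range (LinearMap.funLeft K K
      (Quotient.mk'' : X → MulAction.orbitRel.Quotient (Subgroup.zpowers g) X)) := by
  ext m
  rw [mem_invSub, LinearMap.mem_range]
  constructor
  · intro hm
    refine ⟨Quotient.lift m ?_, ?_⟩
    · rintro x y ⟨⟨_, k, rfl⟩, hk⟩
      -- `x = g ^ k • y`
      have hxy : g ^ k • y = x := hk
      rw [← hxy, invariant_zpow K hm]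
    · funext x
      rfl
  · rintro ⟨f, rfl⟩
    funext x
    show f (Quotient.mk'' (g⁻¹ • x)) = f (Quotient.mk'' x)
    congr 1
    apply Quotient.sound
    exact ⟨⟨g⁻¹, Subgroup.inv_mem _ (Subgroup.mem_zpowers g)⟩, rfl⟩

variable [Finite X]

theorem finrank_invSub (g : G) :
    finrank K (invSub K g : Submodule K (X → K)) = numOrb X g := by
  classical
  have : Fintype X := Fintype.ofFinite X
  have : Fintype (MulAction.orbitRel.Quotient (Subgroup.zpowers g) X) := Fintype.ofFinite _
  rw [invSub_eq_range_funLeft, LinearMap.finrank_range_of_inj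
    (LinearMap.funLeft_injective_of_surjective K K _ Quotient.mk''_surjective),
    Module.finrank_fintype_fun_eq_card, numOrb, Nat.card_eq_fintype_card]

theorem finrank_rangeSub_add (g : G) :
    finrank K (rangeSub K g : Submodule K (X → K)) + numOrb X g = Nat.card X := by
  classical
  have : Fintype X := Fintype.ofFinite X
  rw [← finrank_invSub K g, rangeSub, invSub, LinearMap.finrank_range_add_finrank_ker,
    Module.finrank_fintype_fun_eq_card, Nat.card_eq_fintype_card]



omit [Finite X] in
theorem add_eq_zero_of_mem_rangeSub (g : G)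
    (hg : ∀ m : X → K, funRep K g (funRep K g m) = m) {a : X → K} (ha : a ∈ rangeSub K g) :
    a + funRep K g a = 0 := by
  obtain ⟨p, rfl⟩ := (mem_rangeSub K g a).mp ha
  rw [map_sub, hg]
  abel

omit [Finite X] in
theorem add_add_eq_zero_of_mem_rangeSub (g : G)
    (hg : ∀ m : X → K, funRep K g (funRep K g (funRep K g m)) = m) {b : X → K}
    (hb : b ∈ rangeSub K g) :
    b + funRep K g b + funRep K g (funRep K g b) = 0 := by
  obtain ⟨p, rfl⟩ := (mem_rangeSub K g b).mp hb
  simp only [map_sub, hg]
  abel

section Sum

omit [Finite X]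
variable [Fintype X]

/-- The sum functional on functions. -/
def sumL : (X → K) →ₗ[K] K where
  toFun m := ∑ x, m x
  map_add' m m' := by simp [Finset.sum_add_distrib]
  map_smul' c m := by simp [Finset.mul_sum]

@[simp] theorem sumL_apply (m : X → K) : sumL K m = ∑ x, m x := rfl

theorem sumL_funRep (g : G) (m : X → K) : sumL K (funRep K g m) = sumL K m := by
  simp only [sumL_apply, funRep_apply]
  exact Equiv.sum_comp (MulAction.toPerm g⁻¹) m

theorem rangeSub_le_ker_sumL (g : G) :
    (rangeSub K g : Submodule K (X → K)) ≤ LinearMap.ker (sumL K) := by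
  intro m hm
  obtain ⟨p, rfl⟩ := (mem_rangeSub K g m).mp hm
  rw [LinearMap.mem_ker, map_sub, sumL_funRep, sub_self]

theorem sumL_surjective [Nonempty X] : Function.Surjective (sumL K : (X → K) →ₗ[K] K) := by
  classical
  intro c
  obtain ⟨x₀⟩ := ‹Nonempty X›
  refine ⟨Pi.single x₀ c, ?_⟩
  simp

/-- The sum functional on the quotient by `range (g - 1)`. -/
def sumQ (g : G) : ((X → K) ⧸ (rangeSub K g : Submodule K (X → K))) →ₗ[K] K :=
  (rangeSub K g).liftQ (sumL K) (rangeSub_le_ker_sumL K g)

theorem sumQ_mk (g : G) (m : X → K) :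
    sumQ K g (Submodule.Quotient.mk m) = sumL K m := rfl

theorem finrank_ker_sumQ_add_one [Nonempty X] (g : G) :
    finrank K (LinearMap.ker (sumQ K g : ((X → K) ⧸ rangeSub K g) →ₗ[K] K)) + 1 = numOrb X g := by
  have hsurj : Function.Surjective (sumQ K g : ((X → K) ⧸ rangeSub K g) →ₗ[K] K) := by
    intro c
    obtain ⟨m, hm⟩ := sumL_surjective K (X := X) c
    exact ⟨Submodule.Quotient.mk m, hm⟩
  have h1 := LinearMap.finrank_range_add_finrank_ker
    (sumQ K g : ((X → K) ⧸ rangeSub K g) →ₗ[K] K)
  rw [LinearMap.range_eq_top.mpr hsurj, finrank_top, Module.finrank_self] at h1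
  have h2 := Submodule.finrank_quotient_add_finrank (rangeSub K g : Submodule K (X → K))
  have h3 := finrank_rangeSub_add K (X := X) g
  have h4 : finrank K (X → K) = Nat.card X := by
    rw [Module.finrank_fintype_fun_eq_card, Nat.card_eq_fintype_card]
  omega

end Sum

end Fermat.Agent.S20.H270
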