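import Fermat.Agent.S20.H270.Cocycle
import Fermat.Agent.S20.H270.Parabolic
import Fermat.Agent.S20.H270.Orbits
import Fermat.Prelude.Def_ModularCurve_PeriodMap

/-!
# Lower bound for the dimension of the parabolic homomorphisms of a finite index subgroup

For `Γ ≤ SL(2,ℤ)` of finite index with `-1 ∈ Γ`, `X = SL(2,ℤ) ⧸ Γ`, `μ = |X|`:
`μ + 2 ≤ dim Hom_par(Γ, K) + o(S) + o(S * T) + o(T)`.
-/

set_option autoImplicit false
set_option maxSynthPendingDepth 4

open scoped MatrixGroups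
open ModularGroup Module ModularCurve.Period

namespace Fermat.Agent.S20.H270

variable (K : Type*) [Field K] (Γ : Subgroup SL(2, ℤ))

/-- The base point of `SL(2,ℤ) ⧸ Γ`. -/
def basePt : SL(2, ℤ) ⧸ Γ := QuotientGroup.mk 1

variable {Γ}

theorem smul_mk' (g h : SL(2, ℤ)) :
    g • (QuotientGroup.mk h : SL(2, ℤ) ⧸ Γ) = QuotientGroup.mk (g * h) := rfl

theorem smul_basePt_of_mem {γ : SL(2, ℤ)} (hγ : γ ∈ Γ) : γ • basePt Γ = basePt Γ := by
  rw [basePt, smul_mk', mul_one, QuotientGroup.eq, mul_one]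
  exact Γ.inv_mem hγ

theorem inv_smul_basePt_of_mem {γ : SL(2, ℤ)} (hγ : γ ∈ Γ) : γ⁻¹ • basePt Γ = basePt Γ :=
  smul_basePt_of_mem (Γ.inv_mem hγ)

theorem neg_one_smul_quot (hneg : (-1 : SL(2, ℤ)) ∈ Γ) (x : SL(2, ℤ) ⧸ Γ) :
    (-1 : SL(2, ℤ)) • x = x := by
  induction x using QuotientGroup.induction_on with
  | H h =>
    rw [smul_mk', QuotientGroup.eq]
    have : (-1 * h)⁻¹ * h = -1 := by
      have h1 : (-1 * h) * (-1 : SL(2, ℤ)) = h := by simp
      calc (-1 * h)⁻¹ * h = (-1 * h)⁻¹ * ((-1 * h) * (-1 : SL(2, ℤ))) := by rw [h1]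
        _ = -1 := by rw [inv_mul_cancel_left]
    rw [this]
    exact hneg


/-- The permutation representation of `SL(2,ℤ)` on functions on `SL(2,ℤ) ⧸ Γ`. -/
abbrev repΓ (Γ : Subgroup SL(2, ℤ)) :
    SL(2, ℤ) →* (((SL(2, ℤ) ⧸ Γ) → K) ≃ₗ[K] ((SL(2, ℤ) ⧸ Γ) → K)) :=
  funRep K

theorem repΓ_neg_one (hneg : (-1 : SL(2, ℤ)) ∈ Γ) : repΓ K Γ (-1) = 1 := by
  ext m x
  show m ((-1 : SL(2, ℤ))⁻¹ • x) = m x
  have : ((-1 : SL(2, ℤ))⁻¹) = -1 := by decide
  rw [this, neg_one_smul_quot hneg]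

theorem repΓ_S_S (hneg : (-1 : SL(2, ℤ)) ∈ Γ) (m : (SL(2, ℤ) ⧸ Γ) → K) :
    repΓ K Γ S (repΓ K Γ S m) = m :=
  rho_S_S _ (repΓ_neg_one K hneg) m

theorem repΓ_U_U_U (hneg : (-1 : SL(2, ℤ)) ∈ Γ) (m : (SL(2, ℤ) ⧸ Γ) → K) :
    repΓ K Γ Umat (repΓ K Γ Umat (repΓ K Γ Umat m)) = m :=
  rho_U_U_U _ (repΓ_neg_one K hneg) m

/-- The space of cocycles. -/
def cocycles (Γ : Subgroup SL(2, ℤ)) : Submodule K (SL(2, ℤ) → ((SL(2, ℤ) ⧸ Γ) → K)) where
  carrier := {c | IsCocycle (repΓ K Γ) c}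
  zero_mem' := fun g h => by simp
  add_mem' := fun {c c'} hc hc' g h => by
    show (c + c') (g * h) = (c + c') g + repΓ K Γ g ((c + c') h)
    simp only [Pi.add_apply, map_add, hc g h, hc' g h]
    abel
  smul_mem' := fun r c hc g h => by
    show (r • c) (g * h) = (r • c) g + repΓ K Γ g ((r • c) h)
    simp only [Pi.smul_apply, map_smul, hc g h, smul_add]

theorem mem_cocycles {c : SL(2, ℤ) → ((SL(2, ℤ) ⧸ Γ) → K)} :
    c ∈ cocycles K Γ ↔ IsCocycle (repΓ K Γ) c := Iff.rfl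

/-- Evaluation of a cocycle at a group element. -/
def evAt (Γ : Subgroup SL(2, ℤ)) (g : SL(2, ℤ)) : cocycles K Γ →ₗ[K] ((SL(2, ℤ) ⧸ Γ) → K) :=
  (LinearMap.proj g).comp (cocycles K Γ).subtype

@[simp] theorem evAt_apply (g : SL(2, ℤ)) (c : cocycles K Γ) : evAt K Γ g c = c.1 g := rfl

/-- Evaluation at `S` and `U`. -/
def evSU (Γ : Subgroup SL(2, ℤ)) :
    cocycles K Γ →ₗ[K] ((SL(2, ℤ) ⧸ Γ) → K) × ((SL(2, ℤ) ⧸ Γ) → K) :=
  (evAt K Γ S).prod (evAt K Γ Umat)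

theorem evSU_injective : Function.Injective (evSU K Γ) := by
  rw [← LinearMap.ker_eq_bot, LinearMap.ker_eq_bot']
  intro c hc
  have h1 : c.1 S = 0 := congrArg Prod.fst hc
  have h2 : c.1 Umat = 0 := congrArg Prod.snd hc
  apply Subtype.ext
  funext g
  exact IsCocycle.eq_zero_of_S_U c.2 h1 h2 g


section Finite

variable [Γ.FiniteIndex]

instance finite_quot : Finite (SL(2, ℤ) ⧸ Γ) := Subgroup.finite_quotient_of_finiteIndex

instance finite_cocycles : Module.Finite K (cocycles K Γ) :=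
  Module.Finite.of_injective (evSU K Γ) (evSU_injective K)

/-- Lower bound for the dimension of the space of cocycles (uses the free product structure
of `PSL(2,ℤ)`). -/
theorem le_finrank_cocycles (hneg : (-1 : SL(2, ℤ)) ∈ Γ) :
    finrank K (rangeSub K (S : SL(2, ℤ)) : Submodule K ((SL(2, ℤ) ⧸ Γ) → K)) +
      finrank K (rangeSub K Umat : Submodule K ((SL(2, ℤ) ⧸ Γ) → K)) ≤
    finrank K (cocycles K Γ) := by
  set RS : Submodule K ((SL(2, ℤ) ⧸ Γ) → K) := rangeSub K (S : SL(2, ℤ)) with hRS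
  set RU : Submodule K ((SL(2, ℤ) ⧸ Γ) → K) := rangeSub K Umat with hRU
  let j : (RS × RU) →ₗ[K] ((SL(2, ℤ) ⧸ Γ) → K) × ((SL(2, ℤ) ⧸ Γ) → K) :=
    LinearMap.prodMap RS.subtype RU.subtype
  have hj : Function.Injective j := by
    rintro ⟨a, b⟩ ⟨a', b'⟩ h
    have h1 : (a : (SL(2, ℤ) ⧸ Γ) → K) = a' := congrArg Prod.fst h
    have h2 : (b : (SL(2, ℤ) ⧸ Γ) → K) = b' := congrArg Prod.snd h
    exact Prod.ext (Subtype.ext h1) (Subtype.ext h2)
  have hle : LinearMap.range j ≤ LinearMap.range (evSU K Γ) := by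
    rintro _ ⟨⟨a, b⟩, rfl⟩
    obtain ⟨c, hc, hcS, hcU⟩ := exists_cocycle (repΓ K Γ) (repΓ_neg_one K hneg) a.1 b.1
      (add_eq_zero_of_mem_rangeSub K S (repΓ_S_S K hneg) a.2)
      (add_add_eq_zero_of_mem_rangeSub K Umat (repΓ_U_U_U K hneg) b.2)
    refine ⟨⟨c, hc⟩, ?_⟩
    exact Prod.ext hcS hcU
  calc finrank K RS + finrank K RU = finrank K (RS × RU) := (Module.finrank_prod).symm
    _ = finrank K (LinearMap.range j) := (LinearMap.finrank_range_of_inj hj).symm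
    _ ≤ finrank K (LinearMap.range (evSU K Γ)) := Submodule.finrank_mono hle
    _ = finrank K (cocycles K Γ) := LinearMap.finrank_range_of_inj (evSU_injective K)


/-! ### The parabolic condition at `T` -/

variable [CharZero K]

omit [Γ.FiniteIndex] in
theorem cocycle_neg_one (hneg : (-1 : SL(2, ℤ)) ∈ Γ) (c : cocycles K Γ) : c.1 (-1) = 0 := by
  have h := c.2 (-1) (-1)
  have h1 : (-1 : SL(2, ℤ)) * (-1) = 1 := by decide
  rw [h1, IsCocycle.map_one c.2, repΓ_neg_one K hneg] at h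
  have h2 : c.1 (-1) + c.1 (-1) = 0 := h.symm
  funext x
  have h3 := congrFun h2 x
  exact add_self_eq_zero.mp h3

omit [Γ.FiniteIndex] in
theorem cocycle_S_add (hneg : (-1 : SL(2, ℤ)) ∈ Γ) (c : cocycles K Γ) :
    c.1 S + repΓ K Γ S (c.1 S) = 0 := by
  have h := c.2 S S
  have h1 : (S : SL(2, ℤ)) * S = -1 := by decide
  rw [h1, cocycle_neg_one K hneg] at h
  exact h.symm

omit [Γ.FiniteIndex] in
theorem cocycle_U_add (hneg : (-1 : SL(2, ℤ)) ∈ Γ) (c : cocycles K Γ) :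
    c.1 Umat + repΓ K Γ Umat (c.1 Umat) + repΓ K Γ Umat (repΓ K Γ Umat (c.1 Umat)) = 0 := by
  have h := c.2 Umat (Umat * Umat)
  have h1 : Umat * (Umat * Umat) = -1 := by decide
  rw [h1, cocycle_neg_one K hneg, c.2 Umat Umat, map_add] at h
  rw [h]
  abel

section Sum

/-- A `Fintype` structure on the coset space (only used internally). -/
noncomputable local instance fintypeQuot : Fintype (SL(2, ℤ) ⧸ Γ) := Fintype.ofFinite _

theorem sumL_cocycle_S (hneg : (-1 : SL(2, ℤ)) ∈ Γ) (c : cocycles K Γ) :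
    sumL K (c.1 S) = 0 := by
  have h := congrArg (sumL K) (cocycle_S_add K hneg c)
  rw [map_add, sumL_funRep, map_zero] at h
  exact add_self_eq_zero.mp h

theorem sumL_cocycle_U (hneg : (-1 : SL(2, ℤ)) ∈ Γ) (c : cocycles K Γ) :
    sumL K (c.1 Umat) = 0 := by
  have h := congrArg (sumL K) (cocycle_U_add K hneg c)
  rw [map_add, map_add, sumL_funRep, sumL_funRep, sumL_funRep, map_zero] at h
  have h3 : (3 : K) * sumL K (c.1 Umat) = 0 := by linear_combination h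
  rcases mul_eq_zero.mp h3 with h4 | h4
  · exact absurd h4 (by norm_num)
  · exact h4

theorem sumL_cocycle_T (hneg : (-1 : SL(2, ℤ)) ∈ Γ) (c : cocycles K Γ) :
    sumL K (c.1 T) = 0 := by
  rw [IsCocycle.map_T c.2, sumL_funRep, map_sub, sumL_cocycle_S K hneg, sumL_cocycle_U K hneg,
    sub_zero]

/-- The class of `c T` modulo `range (T - 1)`. -/
def qT (Γ : Subgroup SL(2, ℤ)) :
    cocycles K Γ →ₗ[K] (((SL(2, ℤ) ⧸ Γ) → K) ⧸
      (rangeSub K (T : SL(2, ℤ)) : Submodule K ((SL(2, ℤ) ⧸ Γ) → K))) :=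
  (rangeSub K (T : SL(2, ℤ))).mkQ.comp (evAt K Γ T)

/-- The parabolic cocycles: those with `c T ∈ range (T - 1)`. -/
def cocPar (Γ : Subgroup SL(2, ℤ)) : Submodule K (cocycles K Γ) := LinearMap.ker (qT K Γ)

omit [Γ.FiniteIndex] [CharZero K] in
theorem mem_cocPar (c : cocycles K Γ) :
    c ∈ cocPar K Γ ↔ c.1 T ∈ (rangeSub K (T : SL(2, ℤ)) : Submodule K ((SL(2, ℤ) ⧸ Γ) → K)) := by
  rw [cocPar, LinearMap.mem_ker, qT, LinearMap.comp_apply, Submodule.mkQ_apply,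
    Submodule.Quotient.mk_eq_zero]
  rfl

theorem range_qT_le (hneg : (-1 : SL(2, ℤ)) ∈ Γ) :
    LinearMap.range (qT K Γ) ≤ LinearMap.ker (sumQ K (T : SL(2, ℤ))) := by
  rintro _ ⟨c, rfl⟩
  rw [LinearMap.mem_ker]
  show sumQ K T (Submodule.Quotient.mk (c.1 T)) = 0
  rw [sumQ_mk, sumL_cocycle_T K hneg]

theorem finrank_cocycles_add_one_le (hneg : (-1 : SL(2, ℤ)) ∈ Γ) :
    finrank K (cocycles K Γ) + 1 ≤ finrank K (cocPar K Γ) + numOrb (SL(2, ℤ) ⧸ Γ) T := by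
  have h1 := LinearMap.finrank_range_add_finrank_ker (qT K Γ)
  have h2 := Submodule.finrank_mono (range_qT_le K hneg)
  have : Nonempty (SL(2, ℤ) ⧸ Γ) := ⟨basePt Γ⟩
  have h3 := finrank_ker_sumQ_add_one K (X := SL(2, ℤ) ⧸ Γ) (T : SL(2, ℤ))
  have h4 : finrank K (cocPar K Γ) = finrank K (LinearMap.ker (qT K Γ)) := rfl
  omega


/-! ### From cocycles to homomorphisms of `Γ` -/

omit [Γ.FiniteIndex] [CharZero K] in
theorem cocycle_mul_apply_basePt (c : cocycles K Γ) (g γ : SL(2, ℤ)) :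
    c.1 (g * γ) (g • basePt Γ) = c.1 g (g • basePt Γ) + c.1 γ (basePt Γ) := by
  rw [c.2 g γ, Pi.add_apply, funRep_apply, inv_smul_smul]

/-- The homomorphism `γ ↦ c γ x₀` of `Γ` attached to a cocycle `c`. -/
def toHom (c : cocycles K Γ) : Additive Γ →+ K where
  toFun γ := c.1 ((Additive.toMul γ : Γ) : SL(2, ℤ)) (basePt Γ)
  map_zero' := by
    show c.1 (1 : SL(2, ℤ)) (basePt Γ) = 0
    rw [IsCocycle.map_one c.2]; rfl
  map_add' γ δ := by
    show c.1 (((Additive.toMul γ : Γ) : SL(2, ℤ)) * ((Additive.toMul δ : Γ) : SL(2, ℤ))) (basePt Γ)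
      = c.1 ((Additive.toMul γ : Γ) : SL(2, ℤ)) (basePt Γ) +
        c.1 ((Additive.toMul δ : Γ) : SL(2, ℤ)) (basePt Γ)
    rw [c.2, Pi.add_apply, funRep_apply, inv_smul_basePt_of_mem (Additive.toMul γ).2]

omit [Γ.FiniteIndex] [CharZero K] in
@[simp] theorem toHom_apply (c : cocycles K Γ) (γ : Γ) :
    toHom K c (Additive.ofMul γ) = c.1 (γ : SL(2, ℤ)) (basePt Γ) := rfl

/-- `toHom` as a linear map. -/
def homL (Γ : Subgroup SL(2, ℤ)) : cocycles K Γ →ₗ[K] (Additive Γ →+ K) where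
  toFun := toHom K
  map_add' c c' := by
    ext γ
    rfl
  map_smul' r c := by
    ext γ
    rfl

omit [Γ.FiniteIndex] in
theorem toHom_mem_parabolicHoms (hneg : (-1 : SL(2, ℤ)) ∈ Γ) (c : cocycles K Γ)
    (hc : c ∈ cocPar K Γ) : toHom K c ∈ parabolicHoms K Γ K := by
  rw [mem_parabolicHoms_iff]
  intro γ hγ
  show c.1 (γ : SL(2, ℤ)) (basePt Γ) = 0
  obtain ⟨p, hp⟩ := (mem_rangeSub K T (c.1 T)).mp ((mem_cocPar K c).mp hc)
  have hT : T ∈ IsCocycle.stab c.2 (-p) := by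
    show repΓ K Γ T (-p) + c.1 T = -p
    rw [← hp, map_neg]
    abel
  obtain ⟨g, k, hk⟩ := exists_conj_T_zpow_of_trace_sq (γ : SL(2, ℤ)) hγ
  have hTk : T ^ k ∈ IsCocycle.stab c.2 (-p) := Subgroup.zpow_mem _ hT k
  have hconj := IsCocycle.conj_mem_stab c.2 hTk g
  set w := repΓ K Γ g (-p) + c.1 g with hw
  have hneg1 : (-1 : SL(2, ℤ)) ∈ IsCocycle.stab c.2 w := by
    show repΓ K Γ (-1) w + c.1 (-1) = w
    rw [repΓ_neg_one K hneg, cocycle_neg_one K hneg]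
    simp
  have hγmem : (γ : SL(2, ℤ)) ∈ IsCocycle.stab c.2 w := by
    rcases hk with hk | hk
    · rw [hk]; exact hconj
    · rw [hk]
      have := Subgroup.mul_mem _ hneg1 hconj
      rwa [neg_one_mul] at this
  have h := congrFun ((IsCocycle.mem_stab c.2 w γ).mp hγmem) (basePt Γ)
  rw [Pi.add_apply, funRep_apply, inv_smul_basePt_of_mem γ.2] at h
  exact add_left_cancel (a := w (basePt Γ)) (by rw [h, add_zero])

/-- The map from parabolic cocycles to parabolic homomorphisms. -/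
def lam (hneg : (-1 : SL(2, ℤ)) ∈ Γ) : cocPar K Γ →ₗ[K] parabolicHoms K Γ K :=
  LinearMap.codRestrict (parabolicHoms K Γ K) ((homL K Γ).comp (cocPar K Γ).subtype)
    (fun c => toHom_mem_parabolicHoms K hneg c.1 c.2)

/-- The "potential" `x ↦ c (rep x) x` of a cocycle. -/
noncomputable def potL (Γ : Subgroup SL(2, ℤ)) :
    (SL(2, ℤ) → ((SL(2, ℤ) ⧸ Γ) → K)) →ₗ[K] ((SL(2, ℤ) ⧸ Γ) → K) where
  toFun c := fun x => c (Quotient.out x) x
  map_add' _ _ := rfl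
  map_smul' _ _ := rfl

omit [Γ.FiniteIndex] [CharZero K] in
@[simp] theorem potL_apply (c : SL(2, ℤ) → ((SL(2, ℤ) ⧸ Γ) → K)) (x : SL(2, ℤ) ⧸ Γ) :
    potL K Γ c x = c (Quotient.out x) x := rfl

omit [Γ.FiniteIndex] [CharZero K] in
/-- If `c γ x₀ = 0` for all `γ ∈ Γ`, the potential can be computed with any representative. -/
theorem potL_mk (c : cocycles K Γ) (hc : ∀ γ ∈ Γ, c.1 γ (basePt Γ) = 0) (h : SL(2, ℤ)) :
    potL K Γ c.1 (QuotientGroup.mk h) = c.1 h (QuotientGroup.mk h) := by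
  rw [potL_apply]
  obtain ⟨γ, hout⟩ := QuotientGroup.mk_out_eq_mul Γ h
  have e : (Quotient.out (QuotientGroup.mk h : SL(2, ℤ) ⧸ Γ)) = h * (γ : SL(2, ℤ)) := hout
  have hb : (QuotientGroup.mk h : SL(2, ℤ) ⧸ Γ) = h • basePt Γ := by
    rw [basePt, smul_mk', mul_one]
  rw [e, hb, cocycle_mul_apply_basePt K c h γ, hc γ γ.2, add_zero]

omit [Γ.FiniteIndex] [CharZero K] in
/-- A cocycle whose homomorphism vanishes is the coboundary of its potential. -/
theorem cocycle_eq_coboundary (c : cocycles K Γ) (hc : ∀ γ ∈ Γ, c.1 γ (basePt Γ) = 0)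
    (g : SL(2, ℤ)) : c.1 g = potL K Γ c.1 - repΓ K Γ g (potL K Γ c.1) := by
  funext x
  induction x using QuotientGroup.induction_on with
  | H h =>
    rw [Pi.sub_apply, funRep_apply, smul_mk', potL_mk K c hc, potL_mk K c hc]
    have h1 := c.2 g (g⁻¹ * h)
    rw [mul_inv_cancel_left] at h1
    rw [h1, Pi.add_apply, funRep_apply, smul_mk']
    abel


theorem finrank_ker_lam_add_one_le (hneg : (-1 : SL(2, ℤ)) ∈ Γ) :
    finrank K (LinearMap.ker (lam K hneg)) + 1 ≤ Nat.card (SL(2, ℤ) ⧸ Γ) := by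
  let P : LinearMap.ker (lam K hneg) →ₗ[K] ((SL(2, ℤ) ⧸ Γ) → K) :=
    (potL K Γ).comp ((cocycles K Γ).subtype.comp
      ((cocPar K Γ).subtype.comp (LinearMap.ker (lam K hneg)).subtype))
  have hvan : ∀ c : LinearMap.ker (lam K hneg), ∀ γ ∈ Γ, c.1.1.1 γ (basePt Γ) = 0 := by
    intro c γ hγ
    have h2 : toHom K c.1.1 = 0 := congrArg Subtype.val (LinearMap.mem_ker.mp c.2)
    exact DFunLike.congr_fun h2 (Additive.ofMul (⟨γ, hγ⟩ : Γ))
  have hinj : Function.Injective P := by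
    refine (injective_iff_map_eq_zero P).mpr ?_
    intro c hc
    have hc' : potL K Γ c.1.1.1 = 0 := hc
    apply Subtype.ext
    apply Subtype.ext
    apply Subtype.ext
    funext g
    rw [cocycle_eq_coboundary K c.1.1 (hvan c) g, hc']
    simp
  have hrange : LinearMap.range P ≤
      LinearMap.ker (LinearMap.proj (basePt Γ) : ((SL(2, ℤ) ⧸ Γ) → K) →ₗ[K] K) := by
    rintro _ ⟨c, rfl⟩
    rw [LinearMap.mem_ker]
    show potL K Γ c.1.1.1 (basePt Γ) = 0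
    have h1 := potL_mk K c.1.1 (hvan c) 1
    have h2 : (basePt Γ) = QuotientGroup.mk 1 := rfl
    rw [h2, h1, IsCocycle.map_one c.1.1.2]
    rfl
  have h1 := LinearMap.finrank_range_of_inj hinj
  have h2 := Submodule.finrank_mono hrange
  have h3 := LinearMap.finrank_range_add_finrank_ker
    (LinearMap.proj (basePt Γ) : ((SL(2, ℤ) ⧸ Γ) → K) →ₗ[K] K)
  have hsurj : Function.Surjective
      (LinearMap.proj (basePt Γ) : ((SL(2, ℤ) ⧸ Γ) → K) →ₗ[K] K) := fun a => ⟨fun _ => a, rfl⟩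
  rw [LinearMap.range_eq_top.mpr hsurj, finrank_top, finrank_self, finrank_fintype_fun_eq_card,
    ← Nat.card_eq_fintype_card] at h3
  omega

end Sum

omit [CharZero K] in
/-- `Hom(Γ, K)` is finite dimensional (`Γ` is finitely generated). -/
theorem finite_addMonoidHom : Module.Finite K (Additive Γ →+ K) := by
  have hG : Group.FG SL(2, ℤ) :=
    Group.fg_iff.mpr ⟨{S, T}, SpecialLinearGroup.SL2Z_generators, Set.toFinite _⟩
  have hΓ : Group.FG Γ := Subgroup.fg_of_index_ne_zero Γ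
  obtain ⟨s, hs, hfin⟩ := Group.fg_iff.mp hΓ
  have : Finite s := hfin
  let E : (Additive Γ →+ K) →ₗ[K] (s → K) :=
    { toFun := fun φ γ => φ (Additive.ofMul γ.1)
      map_add' := fun _ _ => rfl
      map_smul' := fun _ _ => rfl }
  refine Module.Finite.of_injective E ?_
  rw [← LinearMap.ker_eq_bot, LinearMap.ker_eq_bot']
  intro φ hφ
  have key : ∀ γ : Γ, φ (Additive.ofMul γ) = 0 := by
    intro γ
    have hγ : γ ∈ Subgroup.closure s := by rw [hs]; trivial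
    induction hγ using Subgroup.closure_induction with
    | mem x hx => exact congrFun hφ ⟨x, hx⟩
    | one => exact map_zero φ
    | mul x y _ _ hx hy =>
      rw [ofMul_mul, map_add, hx, hy, add_zero]
    | inv x _ hx =>
      rw [ofMul_inv, map_neg, hx, neg_zero]
  ext γ
  exact key (Additive.toMul γ)

instance finite_parabolicHoms : Module.Finite K (parabolicHoms K Γ K) := by
  have := finite_addMonoidHom K (Γ := Γ)
  infer_instance

/-- **Lower bound for the parabolic cohomology.** For `Γ ≤ SL(2,ℤ)` of finite index containing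
`-1`, and `K` a field of characteristic zero:
`|X| + 2 ≤ dim Hom_par(Γ, K) + o(S) + o(S * T) + o(T)`, where `X = SL(2,ℤ) ⧸ Γ` and `o(g)` is the
number of orbits of `⟨g⟩` on `X`. -/
theorem card_add_two_le_finrank_parabolicHoms (hneg : (-1 : SL(2, ℤ)) ∈ Γ) :
    Nat.card (SL(2, ℤ) ⧸ Γ) + 2 ≤
      finrank K (parabolicHoms K Γ K) + numOrb (SL(2, ℤ) ⧸ Γ) (S : SL(2, ℤ)) +
        numOrb (SL(2, ℤ) ⧸ Γ) (S * T : SL(2, ℤ)) + numOrb (SL(2, ℤ) ⧸ Γ) (T : SL(2, ℤ)) := by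
  have h1 := le_finrank_cocycles K hneg
  have h2 := finrank_cocycles_add_one_le K hneg
  have h3 := finrank_ker_lam_add_one_le K hneg
  have h4 := LinearMap.finrank_range_add_finrank_ker (lam K (Γ := Γ) hneg)
  have h5 : finrank K (LinearMap.range (lam K (Γ := Γ) hneg)) ≤
      finrank K (parabolicHoms K Γ K) :=
    Submodule.finrank_le _
  have h6 := finrank_rangeSub_add K (X := SL(2, ℤ) ⧸ Γ) (S : SL(2, ℤ))
  have h7 := finrank_rangeSub_add K (X := SL(2, ℤ) ⧸ Γ) Umat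
  have h8 : numOrb (SL(2, ℤ) ⧸ Γ) Umat = numOrb (SL(2, ℤ) ⧸ Γ) (S * T : SL(2, ℤ)) := rfl
  omega

end Finite

end Fermat.Agent.S20.H270
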