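import Mathlib

/-!
# `PSL(2,ℤ) = C₂ * C₃`, as a universal property of `SL(2,ℤ)`

Main result: `exists_monoidHom_of_sq_of_cube` — for every group `A` and `x y : A` with
`x ^ 2 = 1`, `y ^ 3 = 1` there is a homomorphism `Ψ : SL(2,ℤ) →* A` with `Ψ S = x`,
`Ψ (S * T) = y`.  Proof: ping-pong for the action on the upper half plane.
-/

set_option autoImplicit false

open scoped MatrixGroups UpperHalfPlane
open ModularGroup

namespace Fermat.Agent.S20.H270

/-- The element `U = S * T` (of order `3` in `PSL(2,ℤ)`). -/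
def Umat : SL(2, ℤ) := S * T

theorem S_sq_eq_neg_one : (S : SL(2, ℤ)) ^ 2 = -1 := by decide

theorem Umat_cube_eq_neg_one : Umat ^ 3 = -1 := by decide

theorem T_eq_S_inv_mul_Umat : (T : SL(2, ℤ)) = S⁻¹ * Umat := by
  simp [Umat]

/-- The homomorphism from a cyclic group of order `n` determined by `x` with `x ^ n = 1`. -/
noncomputable def cycHom {A : Type*} [Group A] (n : ℕ) (x : A) (hx : x ^ n = 1) :
    Multiplicative (ZMod n) →* A :=
  AddMonoidHom.toMultiplicativeLeft
    (ZMod.lift n ⟨zmultiplesHom (Additive A) (Additive.ofMul x), by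
      show ((n : ℤ) • Additive.ofMul x : Additive A) = 0
      rw [natCast_zsmul, ← ofMul_pow, hx]; rfl⟩)

theorem cycHom_ofAdd_intCast {A : Type*} [Group A] (n : ℕ) (x : A) (hx : x ^ n = 1) (k : ℤ) :
    cycHom n x hx (Multiplicative.ofAdd (k : ZMod n)) = x ^ k := by
  simp [cycHom]

theorem cycHom_ofAdd_one {A : Type*} [Group A] (n : ℕ) (x : A) (hx : x ^ n = 1) :
    cycHom n x hx (Multiplicative.ofAdd (1 : ZMod n)) = x := by
  have := cycHom_ofAdd_intCast n x hx 1
  simpa using this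


/-! ### Real parts under `S` and `U = S * T` -/

open UpperHalfPlane

theorem re_S_smul_eq (z : ℍ) : (S • z).re = - z.re / Complex.normSq (z : ℂ) := by
  rw [modular_S_smul]
  show ((-(z : ℂ))⁻¹).re = _
  rw [Complex.inv_re]
  simp [Complex.normSq_neg]

theorem re_S_smul_pos {z : ℍ} (h : z.re < 0) : 0 < (S • z).re := by
  rw [re_S_smul_eq]
  have hz : 0 < Complex.normSq (z : ℂ) := Complex.normSq_pos.mpr z.ne_zero
  exact div_pos (by linarith) hz

theorem re_S_smul_neg {z : ℍ} (h : 0 < z.re) : (S • z).re < 0 := by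
  rw [re_S_smul_eq]
  have hz : 0 < Complex.normSq (z : ℂ) := Complex.normSq_pos.mpr z.ne_zero
  exact div_neg_of_neg_of_pos (by linarith) hz

/-- If `re z > -1` then `re (U z) < 0`. -/
theorem re_Umat_smul_neg {z : ℍ} (h : -1 < z.re) : (Umat • z).re < 0 := by
  rw [Umat, mul_smul]
  apply re_S_smul_neg
  rw [re_T_smul]; linarith

/-- If `re z > 0` then `re (U z) > -1`. -/
theorem neg_one_lt_re_Umat_smul {z : ℍ} (h : 0 < z.re) : -1 < (Umat • z).re := by
  rw [Umat, mul_smul, re_S_smul_eq]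
  have hz : 0 < Complex.normSq ((T • z : ℍ) : ℂ) := Complex.normSq_pos.mpr (T • z).ne_zero
  rw [lt_div_iff₀ hz]
  have h1 : (T • z).re = z.re + 1 := re_T_smul z
  have h2 : Complex.normSq ((T • z : ℍ) : ℂ) = (T • z).re ^ 2 + (T • z).im ^ 2 := by
    rw [Complex.normSq_apply]; simp only [UpperHalfPlane.coe_re, UpperHalfPlane.coe_im]; ring
  rw [h2, h1]
  have him : 0 < (T • z).im := (T • z).im_pos
  nlinarith [sq_nonneg ((T • z).im)]

/-! ### The ping-pong -/

/-- The action of `SL(2,ℤ)` on `ℍ` as a homomorphism to permutations. -/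
noncomputable def rhoH : SL(2, ℤ) →* Equiv.Perm ℍ := MulAction.toPermHom SL(2, ℤ) ℍ

@[simp] theorem rhoH_apply (g : SL(2, ℤ)) (z : ℍ) : rhoH g z = g • z := rfl

theorem rhoH_neg_one : rhoH (-1) = 1 := by
  refine Equiv.ext fun z => ?_
  show ((-1 : SL(2, ℤ)) • z : ℍ) = z
  rw [SL_neg_smul, one_smul]

theorem rhoH_S_sq : rhoH S ^ 2 = 1 := by
  rw [← map_pow, S_sq_eq_neg_one, rhoH_neg_one]

theorem rhoH_Umat_cube : rhoH Umat ^ 3 = 1 := by
  rw [← map_pow, Umat_cube_eq_neg_one, rhoH_neg_one]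

/-- Orders of the two cyclic factors: `false ↦ 2`, `true ↦ 3`. -/
@[reducible] def cycOrd : Bool → ℕ
  | false => 2
  | true => 3

/-- The two cyclic factors. -/
abbrev Cyc (b : Bool) : Type := Multiplicative (ZMod (cycOrd b))

/-- The family of homomorphisms `C₂ → A`, `C₃ → A` attached to `x`, `y`. -/
noncomputable def famHom {A : Type*} [Group A] (x y : A) (hx : x ^ 2 = 1) (hy : y ^ 3 = 1) :
    ∀ b : Bool, Cyc b →* A
  | false => cycHom 2 x hx
  | true => cycHom 3 y hy

/-- The ping-pong sets: right and left half planes. -/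
def ppSet : Bool → Set ℍ
  | false => {z | 0 < z.re}
  | true => {z | z.re < 0}

theorem cyc_two_cases (h : Multiplicative (ZMod 2)) (hne : h ≠ 1) :
    h = Multiplicative.ofAdd (1 : ZMod 2) := by
  revert h
  decide

theorem cyc_three_cases (h : Multiplicative (ZMod 3)) (hne : h ≠ 1) :
    h = Multiplicative.ofAdd (1 : ZMod 3) ∨ h = Multiplicative.ofAdd (1 : ZMod 3) ^ 2 := by
  revert h
  decide


/-- The family of homomorphisms `C₂, C₃ → Perm ℍ` given by `S` and `U`. -/
noncomputable def famH : ∀ b : Bool, Cyc b →* Equiv.Perm ℍ :=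
  famHom (rhoH S) (rhoH Umat) rhoH_S_sq rhoH_Umat_cube

theorem famH_false_gen : famH false (Multiplicative.ofAdd (1 : ZMod 2)) = rhoH S :=
  cycHom_ofAdd_one 2 (rhoH S) rhoH_S_sq

theorem famH_true_gen : famH true (Multiplicative.ofAdd (1 : ZMod 3)) = rhoH Umat :=
  cycHom_ofAdd_one 3 (rhoH Umat) rhoH_Umat_cube

theorem ppSet_S {z : ℍ} (hz : z ∈ ppSet true) : rhoH S z ∈ ppSet false :=
  re_S_smul_pos hz

theorem ppSet_U {z : ℍ} (hz : z ∈ ppSet false) : rhoH Umat z ∈ ppSet true :=
  re_Umat_smul_neg (by have : 0 < z.re := hz; linarith)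

theorem ppSet_U_sq {z : ℍ} (hz : z ∈ ppSet false) : (rhoH Umat ^ 2) z ∈ ppSet true := by
  rw [pow_two, Equiv.Perm.mul_apply]
  exact re_Umat_smul_neg (neg_one_lt_re_Umat_smul hz)

theorem lift_famH_injective : Function.Injective (Monoid.CoprodI.lift famH) := by
  refine Monoid.CoprodI.lift_injective_of_ping_pong famH (Or.inr ⟨true, ?_⟩) ppSet ?_ ?_ ?_
  · show (3 : Cardinal) ≤ Cardinal.mk (Multiplicative (ZMod 3))
    rw [Cardinal.mk_fintype]
    have h3 : Fintype.card (Multiplicative (ZMod 3)) = 3 := by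
      rw [Fintype.card_multiplicative]; exact ZMod.card 3
    rw [h3]; norm_num
  · intro b
    cases b
    · exact ⟨⟨⟨1, 1⟩, by simp⟩, by show (0 : ℝ) < 1; norm_num⟩
    · exact ⟨⟨⟨-1, 1⟩, by simp⟩, by show (-1 : ℝ) < 0; norm_num⟩
  · intro i j hij
    have key : Disjoint (ppSet false) (ppSet true) := by
      rw [Set.disjoint_left]
      intro z (h1 : 0 < z.re) (h2 : z.re < 0)
      linarith
    cases i <;> cases j
    · exact absurd rfl hij
    · exact key
    · exact key.symm
    · exact absurd rfl hij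
  · intro i j hij h hne
    cases i <;> cases j
    · exact absurd rfl hij
    · rw [cyc_two_cases h hne, famH_false_gen, Set.smul_set_subset_iff]
      intro z hz
      exact ppSet_S hz
    · rcases cyc_three_cases h hne with rfl | rfl
      · rw [famH_true_gen, Set.smul_set_subset_iff]
        intro z hz
        exact ppSet_U hz
      · rw [map_pow, famH_true_gen, Set.smul_set_subset_iff]
        intro z hz
        exact ppSet_U_sq hz
    · exact absurd rfl hij


theorem cycHom_mem_range {G A : Type*} [Group G] [Group A] (φ : G →* A) (n : ℕ) (g : G)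
    (hx : φ g ^ n = 1) (h : Multiplicative (ZMod n)) : cycHom n (φ g) hx h ∈ φ.range := by
  obtain ⟨k, hk⟩ := ZMod.intCast_surjective (Multiplicative.toAdd h)
  have : h = Multiplicative.ofAdd (k : ZMod n) := by rw [hk]; rfl
  rw [this, cycHom_ofAdd_intCast, ← map_zpow]
  exact ⟨g ^ k, rfl⟩

theorem famH_mem_range (b : Bool) (h : Cyc b) : famH b h ∈ rhoH.range := by
  cases b
  · exact cycHom_mem_range rhoH 2 S rhoH_S_sq h
  · exact cycHom_mem_range rhoH 3 Umat rhoH_Umat_cube h

theorem range_lift_famH : (Monoid.CoprodI.lift famH).range = rhoH.range := by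
  apply le_antisymm
  · rw [Monoid.CoprodI.range_eq_iSup]
    refine iSup_le fun b => ?_
    rintro _ ⟨h, rfl⟩
    exact famH_mem_range b h
  · rw [MonoidHom.range_eq_map, ← SpecialLinearGroup.SL2Z_generators, MonoidHom.map_closure,
      Subgroup.closure_le]
    have hS : rhoH S ∈ (Monoid.CoprodI.lift famH).range :=
      ⟨Monoid.CoprodI.of (i := false) (Multiplicative.ofAdd (1 : ZMod 2)), by
        rw [Monoid.CoprodI.lift_of]; exact famH_false_gen⟩
    have hU : rhoH Umat ∈ (Monoid.CoprodI.lift famH).range :=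
      ⟨Monoid.CoprodI.of (i := true) (Multiplicative.ofAdd (1 : ZMod 3)), by
        rw [Monoid.CoprodI.lift_of]; exact famH_true_gen⟩
    rintro _ ⟨g, hg, rfl⟩
    rcases hg with rfl | hg
    · exact hS
    · rw [Set.mem_singleton_iff] at hg
      subst hg
      rw [T_eq_S_inv_mul_Umat, map_mul, map_inv]
      exact mul_mem (inv_mem hS) hU

/-- **Universal property of `PSL(2,ℤ) = C₂ * C₃`**, stated on `SL(2,ℤ)`: for `x y` in a group
with `x ^ 2 = 1` and `y ^ 3 = 1` there is a homomorphism `SL(2,ℤ) → A` with `S ↦ x`,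
`S * T ↦ y`. -/
theorem exists_monoidHom_of_sq_of_cube {A : Type*} [Group A] (x y : A) (hx : x ^ 2 = 1)
    (hy : y ^ 3 = 1) : ∃ Ψ : SL(2, ℤ) →* A, Ψ S = x ∧ Ψ (S * T) = y := by
  classical
  set π := Monoid.CoprodI.lift famH with hπdef
  have hπ : Function.Injective π := lift_famH_injective
  let e : Monoid.CoprodI Cyc ≃* π.range := MonoidHom.ofInjective hπ
  let Φ : Monoid.CoprodI Cyc →* A := Monoid.CoprodI.lift (famHom x y hx hy)
  have hr : ∀ g, rhoH g ∈ π.range := fun g => by
    rw [hπdef, range_lift_famH]; exact ⟨g, rfl⟩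
  let ρ' : SL(2, ℤ) →* π.range := rhoH.codRestrict π.range hr
  have key : ∀ (g : SL(2, ℤ)) (w : Monoid.CoprodI Cyc), π w = rhoH g →
      Φ (e.symm (ρ' g)) = Φ w := by
    intro g w hw
    congr 1
    rw [MulEquiv.symm_apply_eq]
    apply Subtype.ext
    rw [MonoidHom.ofInjective_apply]
    exact hw.symm
  refine ⟨Φ.comp (e.symm.toMonoidHom.comp ρ'), ?_, ?_⟩
  · show Φ (e.symm (ρ' S)) = x
    rw [key S (Monoid.CoprodI.of (i := false) (Multiplicative.ofAdd (1 : ZMod 2)))
      (by rw [hπdef, Monoid.CoprodI.lift_of]; exact famH_false_gen)]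
    rw [Monoid.CoprodI.lift_of]
    exact cycHom_ofAdd_one 2 x hx
  · show Φ (e.symm (ρ' (S * T))) = y
    rw [key (S * T) (Monoid.CoprodI.of (i := true) (Multiplicative.ofAdd (1 : ZMod 3)))
      (by rw [hπdef, Monoid.CoprodI.lift_of]; exact famH_true_gen)]
    rw [Monoid.CoprodI.lift_of]
    exact cycHom_ofAdd_one 3 y hy

end Fermat.Agent.S20.H270
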